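/-
S30, leaf (TR-ABS) (helper86): the abstract pseudo-trace limit lemma.

Setting (abstracting the trace-comparison argument of the S31/S30 chains):
* `G` a group acting additively on an abelian group `J` (the Jacobian), with subgroups `Bs n`
  (finite torsion pieces, `G`-stable, killed by `p ^ n`);
* a commutative ring `TT` (the Hecke algebra) acting on a lattice `L` through `θ`, with the
  saturation property `(AR)`:  `θ τ L ⊆ p ^ n L  ⟹  τ ∈ p ^ (n - c) TT`;
* additive maps `AJ n : L → J` with image in `Bs n` and kernel inside `p ^ n L`;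
* generators `(T i, Tgen i)` (Hecke operators on `J` and in `TT`), intertwined by every `AJ n`
  and commuting with `G`;
* integer lifts `e n g` of the mod `p ^ n` cyclotomic character;
* for every `n, g` ONE `τ : TT` which, for all `k ≤ n`, realises `g + e k g • g⁻¹` on `Bs k`
  by the first component of an element `(a, τ)` of the subring generated by the pairs.

Conclusion: a function `t : G → O` into an adically complete ring with `p ∈ I` which is a
pseudo-trace: `t 1 = 2`, `t (g h) = t (h g)`, the "trace-determinant" identities, and which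
is approximated by `χ τ` modulo `I ^ (n - c)`.

Mathlib only.
-/
import Mathlib

set_option autoImplicit false

open Polynomial

namespace Fermat.Agent.S30.H86

section Defs

variable {G : Type*} [Group G] {J : Type*} [AddCommGroup J] [DistribMulAction G J]
variable {TT : Type*} [CommRing TT] {ι : Type*}

/-- The operator `g + e n g • g⁻¹` on `J`. -/
def Aop (e : ℕ → G → ℤ) (n : ℕ) (g : G) (x : J) : J := g • x + e n g • g⁻¹ • x

/-- The subring of `End J × TT` generated by the pairs `(T i, Tgen i)`. -/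
def Rr (T : ι → AddMonoid.End J) (Tgen : ι → TT) : Subring (AddMonoid.End J × TT) :=
  Subring.closure (Set.range fun i => (T i, Tgen i))

/-- `Rel n g τ`: on `Bs n`, the operator `g + e n g • g⁻¹` is the first component of an
element `(a, τ)` of the subring generated by the Hecke pairs. -/
def Rel (Bs : ℕ → AddSubgroup J) (T : ι → AddMonoid.End J) (Tgen : ι → TT) (e : ℕ → G → ℤ)
    (n : ℕ) (g : G) (τ : TT) : Prop :=
  ∃ a : AddMonoid.End J, (a, τ) ∈ Rr T Tgen ∧ ∀ x ∈ Bs n, Aop e n g x = a x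

/-- The specification of the pseudo-trace `t`. -/
def TraceSpec {O : Type*} [CommRing O] (I : Ideal O) (χ : TT →+* O) (c : ℕ)
    (Bs : ℕ → AddSubgroup J) (T : ι → AddMonoid.End J) (Tgen : ι → TT) (e : ℕ → G → ℤ)
    (t : G → O) : Prop :=
  (∀ n g τ, Rel Bs T Tgen e n g τ → t g - χ τ ∈ I ^ (n - c)) ∧
  t 1 = 2 ∧
  (∀ g h, t (g * h) = t (h * g)) ∧
  (∀ g h, 2 * t (g * h) + (t h ^ 2 - t (h ^ 2)) * t (g * h⁻¹) = 2 * (t g * t h)) ∧
  (∀ g h, 2 * (t (g * h) ^ 2 - t ((g * h) ^ 2))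
      = (t g ^ 2 - t (g ^ 2)) * (t h ^ 2 - t (h ^ 2))) ∧
  (∀ n g, t g ^ 2 - t (g ^ 2) - 2 * (e n g : O) ∈ I ^ (n - c)) ∧
  (∀ n g g', (∀ x ∈ Bs n, Aop e n g x = Aop e n g' x) → t g - t g' ∈ I ^ (n - c)) ∧
  (∀ g g', (∀ n, ∀ x ∈ Bs n, Aop e n g x = Aop e n g' x) → t g = t g') ∧
  (∀ g, (∀ n, ∀ x ∈ Bs n, Aop e n g x = 0) → t g = 0) ∧
  (∀ g τ, (∀ n, Rel Bs T Tgen e n g τ) → t g = χ τ)

end Defs

section Closure

variable {G : Type*} [Group G] {J : Type*} [AddCommGroup J] [DistribMulAction G J]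
variable {TT : Type*} [CommRing TT] {ι : Type*}
variable {T : ι → AddMonoid.End J} {Tgen : ι → TT}

theorem gen_mem_Rr (i : ι) : (T i, Tgen i) ∈ Rr T Tgen :=
  Subring.subset_closure ⟨i, rfl⟩

theorem fst_aeval_pair {A B : Type*} [Ring A] [Ring B] (a : A) (b : B) (V : ℤ[X]) :
    aeval ((a, b) : A × B) V = (aeval a V, aeval b V) := by
  refine Prod.ext ?_ ?_
  · change RingHom.fst A B (aeval ((a, b) : A × B) V) = aeval a V
    rw [aeval_def, aeval_def, hom_eval₂]
    congr 1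
  · change RingHom.snd A B (aeval ((a, b) : A × B) V) = aeval b V
    rw [aeval_def, aeval_def, hom_eval₂]
    congr 1

/-- Polynomial expressions in a generator pair lie in `Rr`. -/
theorem aeval_mem_Rr (i : ι) (V : ℤ[X]) : (aeval (T i) V, aeval (Tgen i) V) ∈ Rr T Tgen := by
  rw [← fst_aeval_pair, aeval_eq_sum_range]
  exact sum_mem fun k _ => zsmul_mem (pow_mem (gen_mem_Rr i) k) _

/-- Elements of `Rr` commute with the `G`-action. -/
theorem Rr_comm (hGH : ∀ i (g : G) (x : J), T i (g • x) = g • T i x)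
    {r : AddMonoid.End J × TT} (hr : r ∈ Rr T Tgen) (g : G) (x : J) :
    r.1 (g • x) = g • r.1 x := by
  revert x
  induction hr using Subring.closure_induction with
  | mem r hr => obtain ⟨i, rfl⟩ := hr; exact fun x => hGH i g x
  | zero => intro x; simp
  | one => intro x; simp
  | add a b _ _ ha hb =>
    intro x
    change a.1 (g • x) + b.1 (g • x) = g • (a.1 x + b.1 x)
    rw [ha x, hb x, smul_add]
  | neg a _ ha =>
    intro x
    change -(a.1 (g • x)) = g • (-(a.1 x))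
    rw [ha x, smul_neg]
  | mul a b _ _ ha hb =>
    intro x
    change a.1 (b.1 (g • x)) = g • a.1 (b.1 x)
    rw [hb x, ha]

/-- Elements of `Rr` are intertwined by any additive map intertwining the generators. -/
theorem Rr_intertwine {L : Type*} [AddCommGroup L] (θ : TT →+* AddMonoid.End L) (AJ : L →+ J)
    (hint : ∀ i x, T i (AJ x) = AJ (θ (Tgen i) x))
    {r : AddMonoid.End J × TT} (hr : r ∈ Rr T Tgen) (x : L) :
    r.1 (AJ x) = AJ (θ r.2 x) := by
  revert x
  induction hr using Subring.closure_induction with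
  | mem r hr => obtain ⟨i, rfl⟩ := hr; exact fun x => hint i x
  | zero => intro x; simp
  | one => intro x; simp
  | add a b _ _ ha hb =>
    intro x
    rw [Prod.snd_add, map_add]
    change a.1 (AJ x) + b.1 (AJ x) = AJ (θ a.2 x + θ b.2 x)
    rw [ha x, hb x, map_add]
  | neg a _ ha =>
    intro x
    rw [Prod.snd_neg, map_neg]
    change -(a.1 (AJ x)) = AJ (-(θ a.2 x))
    rw [ha x, map_neg]
  | mul a b _ _ ha hb =>
    intro x
    rw [Prod.snd_mul, map_mul]
    change a.1 (b.1 (AJ x)) = AJ (θ a.2 (θ b.2 x))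
    rw [hb x, ha]

/-- KEY: two elements of `Rr` whose first components agree on `Bs` have second components
congruent modulo `p ^ (n - c)`. -/
theorem Rr_key {L : Type*} [AddCommGroup L] (θ : TT →+* AddMonoid.End L) (p c n : ℕ)
    (har : ∀ τ : TT, (∀ x : L, ∃ y : L, θ τ x = (p ^ n) • y) → ∃ s : TT, τ = (p : TT) ^ (n - c) * s)
    (Bs : AddSubgroup J) (AJ : L →+ J) (hAJB : ∀ x, AJ x ∈ Bs)
    (hker : ∀ x, AJ x = 0 → ∃ y : L, x = (p ^ n) • y)
    (hint : ∀ i x, T i (AJ x) = AJ (θ (Tgen i) x))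
    {r r' : AddMonoid.End J × TT} (hr : r ∈ Rr T Tgen) (hr' : r' ∈ Rr T Tgen)
    (h : ∀ x ∈ Bs, r.1 x = r'.1 x) :
    ∃ s : TT, r.2 - r'.2 = (p : TT) ^ (n - c) * s := by
  apply har
  intro x
  apply hker
  have h1 := Rr_intertwine θ AJ hint (sub_mem hr hr') x
  rw [Prod.snd_sub, Prod.fst_sub] at h1
  rw [← h1]
  change r.1 (AJ x) - r'.1 (AJ x) = 0
  rw [h (AJ x) (hAJB x), sub_self]

end Closure

section Main

variable {G : Type*} [Group G] {J : Type*} [AddCommGroup J] [DistribMulAction G J]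
variable {TT : Type*} [CommRing TT] {ι : Type*}
variable {O : Type*} [CommRing O]

/-- In an `I`-adically separated ring, an element lying in `I ^ (n - c)` for all `n` is zero. -/
theorem eq_zero_of_forall_mem_pow (I : Ideal O) [IsHausdorff I O] (c : ℕ) {x : O}
    (h : ∀ n, x ∈ I ^ (n - c)) : x = 0 := by
  apply IsHausdorff.haus' (I := I) x
  intro m
  rw [SModEq.zero, smul_eq_mul, Ideal.mul_top]
  simpa using h (m + c)

/-- Integers congruent modulo `p ^ n` act in the same way on an element killed by `p ^ n`. -/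
theorem zsmul_eq_of_dvd {p n : ℕ} {x : J} (hx : (p ^ n) • x = 0) {m m' : ℤ}
    (h : ((p : ℤ) ^ n) ∣ m - m') : m • x = m' • x := by
  obtain ⟨k, hk⟩ := h
  have h0 : ((p : ℤ) ^ n) • x = 0 := by
    have : ((p : ℤ) ^ n) = ((p ^ n : ℕ) : ℤ) := by push_cast; rfl
    rw [this, natCast_zsmul, hx]
  have : (m - m') • x = 0 := by rw [hk, mul_comm, mul_smul, h0, smul_zero]
  rw [sub_smul, sub_eq_zero] at this
  exact this

end Main

section RelLemmas

variable {G : Type*} [Group G] {J : Type*} [AddCommGroup J] [DistribMulAction G J]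
variable {TT : Type*} [CommRing TT] {ι : Type*}
variable {Bs : ℕ → AddSubgroup J} {T : ι → AddMonoid.End J} {Tgen : ι → TT} {e : ℕ → G → ℤ}

theorem Aop_mem (hBG : ∀ n (g : G) (x : J), x ∈ Bs n → g • x ∈ Bs n) (n : ℕ) (g : G) {x : J}
    (hx : x ∈ Bs n) : Aop e n g x ∈ Bs n :=
  (Bs n).add_mem (hBG n g x hx) ((Bs n).zsmul_mem (hBG n g⁻¹ x hx) _)

theorem rel_of_eqOn {n : ℕ} {g g' : G} {τ : TT} (h : ∀ x ∈ Bs n, Aop e n g x = Aop e n g' x)
    (hrel : Rel Bs T Tgen e n g τ) : Rel Bs T Tgen e n g' τ := by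
  obtain ⟨a, ha, hax⟩ := hrel
  exact ⟨a, ha, fun x hx => (h x hx) ▸ hax x hx⟩

theorem rel_zero {n : ℕ} {g : G} (h : ∀ x ∈ Bs n, Aop e n g x = 0) :
    Rel Bs T Tgen e n g 0 :=
  ⟨0, (zero_mem (Rr T Tgen) : (0 : AddMonoid.End J × TT) ∈ Rr T Tgen), fun x hx => by
    rw [h x hx]; rfl⟩

theorem rel_gen {n : ℕ} {g : G} (i : ι) (h : ∀ x ∈ Bs n, Aop e n g x = T i x) :
    Rel Bs T Tgen e n g (Tgen i) :=
  ⟨T i, gen_mem_Rr i, h⟩

/-- Polynomial form of a realisation (the shape produced by the Lucas identity). -/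
theorem rel_of_aeval {n : ℕ} {g : G} (i : ι) (V : ℤ[X])
    (h : ∀ x ∈ Bs n, Aop e n g x = aeval (T i) V x) :
    Rel Bs T Tgen e n g (aeval (Tgen i) V) :=
  ⟨aeval (T i) V, aeval_mem_Rr i V, h⟩

theorem rel_one (p : ℕ) (hpB : ∀ n (x : J), x ∈ Bs n → (p ^ n) • x = 0)
    (he1 : ∀ n, ((p : ℤ) ^ n) ∣ e n 1 - 1) (n : ℕ) : Rel Bs T Tgen e n 1 2 := by
  refine ⟨1 + 1, ?_, fun x hx => ?_⟩
  · have : ((1 + 1 : AddMonoid.End J), (2 : TT)) = (1 : AddMonoid.End J × TT) + 1 := by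
      ext <;> simp [one_add_one_eq_two]
    rw [this]
    exact add_mem (one_mem _) (one_mem _)
  · have h1 : e n 1 • x = (1 : ℤ) • x := zsmul_eq_of_dvd (hpB n x hx) (he1 n)
    change (1 : G) • x + e n 1 • (1 : G)⁻¹ • x = x + x
    rw [inv_one, one_smul, h1, one_smul]

theorem rel_comm (p : ℕ) (hBG : ∀ n (g : G) (x : J), x ∈ Bs n → g • x ∈ Bs n)
    (hpB : ∀ n (x : J), x ∈ Bs n → (p ^ n) • x = 0)
    (hGH : ∀ i (g : G) (x : J), T i (g • x) = g • T i x)
    (hemul : ∀ n g h, ((p : ℤ) ^ n) ∣ e n (g * h) - e n g * e n h)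
    {n : ℕ} {g h : G} {τ : TT} (hrel : Rel Bs T Tgen e n (g * h) τ) :
    Rel Bs T Tgen e n (h * g) τ := by
  obtain ⟨a, ha, hax⟩ := hrel
  refine ⟨a, ha, fun x hx => ?_⟩
  have hgx : g • x ∈ Bs n := hBG n g x hx
  have h1 : a (g • x) = g • a x := Rr_comm hGH ha g x
  have h2 := hax (g • x) hgx
  have hy : h⁻¹ • x ∈ Bs n := hBG n h⁻¹ x hx
  have he : e n (h * g) • h⁻¹ • x = e n (g * h) • h⁻¹ • x := by
    apply zsmul_eq_of_dvd (hpB n _ hy)
    have h' : e n (h * g) - e n (g * h)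
        = (e n (h * g) - e n h * e n g) - (e n (g * h) - e n g * e n h) := by ring
    rw [h']
    exact dvd_sub (hemul n h g) (hemul n g h)
  have h3 : g • Aop e n (h * g) x = Aop e n (g * h) (g • x) := by
    unfold Aop
    have e1 : g • (h * g) • x = (g * h) • g • x := by
      rw [← mul_smul, ← mul_smul, mul_assoc]
    have e2 : g • (h * g)⁻¹ • x = h⁻¹ • x := by
      rw [← mul_smul, mul_inv_rev, mul_inv_cancel_left]
    have e3 : (g * h)⁻¹ • g • x = h⁻¹ • x := by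
      rw [← mul_smul, mul_inv_rev, inv_mul_cancel_right]
    rw [smul_add, smul_comm g (e n (h * g)), e1, e2, e3, he]
  have h4 : g • Aop e n (h * g) x = g • a x := by rw [h3, h2, h1]
  exact MulAction.injective g h4

/-- The multiplicative relation: from realisations of `g * h`, `g * h⁻¹`, `g`, `h` one gets
`τ₁ + e n h • τ₂ - τ₄ * τ₃ ∈ p ^ (n - c) TT`. -/
theorem rel_mul {L : Type*} [AddCommGroup L] (θ : TT →+* AddMonoid.End L) (p c : ℕ)
    (har : ∀ (n : ℕ) (τ : TT), (∀ x : L, ∃ y : L, θ τ x = (p ^ n) • y) →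
      ∃ s : TT, τ = (p : TT) ^ (n - c) * s)
    (hBG : ∀ n (g : G) (x : J), x ∈ Bs n → g • x ∈ Bs n)
    (hpB : ∀ n (x : J), x ∈ Bs n → (p ^ n) • x = 0)
    (AJ : ℕ → L →+ J) (hAJB : ∀ n x, AJ n x ∈ Bs n)
    (hker : ∀ n x, AJ n x = 0 → ∃ y : L, x = (p ^ n) • y)
    (hint : ∀ n i x, T i (AJ n x) = AJ n (θ (Tgen i) x))
    (hGH : ∀ i (g : G) (x : J), T i (g • x) = g • T i x)
    (hemul : ∀ n g h, ((p : ℤ) ^ n) ∣ e n (g * h) - e n g * e n h)
    {n : ℕ} {g h : G} {τ₁ τ₂ τ₃ τ₄ : TT}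
    (h1 : Rel Bs T Tgen e n (g * h) τ₁) (h2 : Rel Bs T Tgen e n (g * h⁻¹) τ₂)
    (h3 : Rel Bs T Tgen e n g τ₃) (h4 : Rel Bs T Tgen e n h τ₄) :
    ∃ s : TT, τ₁ + (e n h : TT) * τ₂ - τ₄ * τ₃ = (p : TT) ^ (n - c) * s := by
  obtain ⟨a₁, ha₁, hx₁⟩ := h1
  obtain ⟨a₂, ha₂, hx₂⟩ := h2
  obtain ⟨a₃, ha₃, hx₃⟩ := h3
  obtain ⟨a₄, ha₄, hx₄⟩ := h4
  have hmem : ((a₁, τ₁) + (e n h : AddMonoid.End J × TT) * (a₂, τ₂) - (a₄, τ₄) * (a₃, τ₃) :
      AddMonoid.End J × TT) ∈ Rr T Tgen :=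
    sub_mem (add_mem ha₁ (mul_mem (intCast_mem _ _) ha₂)) (mul_mem ha₄ ha₃)
  have key := Rr_key θ p c n (har n) (Bs n) (AJ n) (hAJB n) (hker n) (hint n) hmem
    (zero_mem (Rr T Tgen)) ?_
  · obtain ⟨s, hs⟩ := key
    exact ⟨s, by simpa using hs⟩
  · intro x hx
    have hgx : g • x ∈ Bs n := hBG n g x hx
    have hginvx : g⁻¹ • x ∈ Bs n := hBG n g⁻¹ x hx
    have hAg : Aop e n g x ∈ Bs n := Aop_mem hBG n g hx
    have c4 : ∀ y ∈ Bs n, a₄ (g • y) = g • a₄ y := fun y _ => Rr_comm hGH ha₄ g y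
    -- the value of the first component
    have hval : ((a₁, τ₁) + (e n h : AddMonoid.End J × TT) * (a₂, τ₂) - (a₄, τ₄) * (a₃, τ₃) :
        AddMonoid.End J × TT).1 x = a₁ x + e n h • a₂ x - a₄ (a₃ x) := by
      simp only [Prod.fst_sub, Prod.fst_add, Prod.fst_mul, Prod.fst_intCast]
      change a₁ x + ((e n h : AddMonoid.End J) * a₂) x - a₄ (a₃ x) = _
      congr 2
    rw [hval]
    change _ = (0 : J)
    rw [← hx₁ x hx, ← hx₂ x hx, ← hx₃ x hx, ← hx₄ _ hAg]
    -- now a pure computation with the commutation of `Aop e n h` with `g`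
    have comm : g • Aop e n h x = Aop e n h (g • x) := by
      rw [hx₄ x hx, hx₄ _ hgx, c4 x hx]
    have hA1 : (h⁻¹ * g⁻¹) • x ∈ Bs n := hBG n _ x hx
    have hA2 : (h * g⁻¹) • x ∈ Bs n := hBG n _ x hx
    have he1 : e n (g * h) • (h⁻¹ * g⁻¹) • x = (e n h * e n g) • (h⁻¹ * g⁻¹) • x := by
      apply zsmul_eq_of_dvd (hpB n _ hA1)
      rw [mul_comm (e n h)]
      exact hemul n g h
    have he2 : (e n h * e n (g * h⁻¹)) • (h * g⁻¹) • x = e n g • (h * g⁻¹) • x := by
      apply zsmul_eq_of_dvd (hpB n _ hA2)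
      -- e h * e (g h⁻¹) ≡ e h * e g * e h⁻¹ ≡ e g * e (h h⁻¹) ≡ e g
      have d1 := hemul n g h⁻¹
      have d2 := hemul n (g * h⁻¹) h
      rw [inv_mul_cancel_right] at d2
      -- d2 : p^n ∣ e g - e (g h⁻¹) * e h
      have h' : e n h * e n (g * h⁻¹) - e n g = -(e n g - e n (g * h⁻¹) * e n h) := by ring
      rw [h']
      exact (dvd_neg).mpr d2
    unfold Aop at comm ⊢
    simp only [smul_add, mul_inv_rev, inv_inv, mul_smul] at comm he1 he2 ⊢
    rw [he1, he2, smul_comm h (e n g), smul_comm h⁻¹ (e n g)]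
    rw [smul_comm g (e n h)] at comm
    have habel : ∀ A B C D E F : J,
        A + E + (B + F) - (C + F + (D + E)) = (A + B) - (C + D) := by
      intros; abel
    rw [habel, comm, sub_self]

end RelLemmas

section Limit

variable {G : Type*} [Group G] {J : Type*} [AddCommGroup J] [DistribMulAction G J]
variable {TT : Type*} [CommRing TT] {ι : Type*}
variable {O : Type*} [CommRing O]

theorem chi_sub_mem (I : Ideal O) (χ : TT →+* O) (p : ℕ) (hpI : (p : O) ∈ I) {k : ℕ}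
    {τ τ' s : TT} (h : τ - τ' = (p : TT) ^ k * s) : χ τ - χ τ' ∈ I ^ k := by
  rw [← map_sub, h, map_mul, map_pow, map_natCast]
  exact Ideal.mul_mem_right _ _ (Ideal.pow_mem_pow hpI k)

/-- **(TR-ABS)** The abstract pseudo-trace limit lemma. -/
theorem exists_pseudoTrace {L : Type*} [AddCommGroup L]
    (I : Ideal O) [IsAdicComplete I O] (χ : TT →+* O) (p c : ℕ) (hpI : (p : O) ∈ I)
    (θ : TT →+* AddMonoid.End L)
    (har : ∀ (n : ℕ) (τ : TT), (∀ x : L, ∃ y : L, θ τ x = (p ^ n) • y) →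
      ∃ s : TT, τ = (p : TT) ^ (n - c) * s)
    (Bs : ℕ → AddSubgroup J) (hBG : ∀ n (g : G) (x : J), x ∈ Bs n → g • x ∈ Bs n)
    (hpB : ∀ n (x : J), x ∈ Bs n → (p ^ n) • x = 0)
    (AJ : ℕ → L →+ J) (hAJB : ∀ n x, AJ n x ∈ Bs n)
    (hker : ∀ n x, AJ n x = 0 → ∃ y : L, x = (p ^ n) • y)
    (T : ι → AddMonoid.End J) (Tgen : ι → TT)
    (hint : ∀ n i x, T i (AJ n x) = AJ n (θ (Tgen i) x))
    (hGH : ∀ i (g : G) (x : J), T i (g • x) = g • T i x)
    (e : ℕ → G → ℤ) (he1 : ∀ n, ((p : ℤ) ^ n) ∣ e n 1 - 1)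
    (hemul : ∀ n g h, ((p : ℤ) ^ n) ∣ e n (g * h) - e n g * e n h)
    (hEX : ∀ n g, ∃ τ : TT, ∀ k ≤ n, Rel Bs T Tgen e k g τ) :
    ∃ t : G → O, TraceSpec I χ c Bs T Tgen e t := by
  -- uniqueness of the realising element modulo `p ^ (n - c)`
  have huniq : ∀ n g τ τ', Rel Bs T Tgen e n g τ → Rel Bs T Tgen e n g τ' →
      χ τ - χ τ' ∈ I ^ (n - c) := by
    rintro n g τ τ' ⟨a, ha, hax⟩ ⟨a', ha', hax'⟩
    obtain ⟨s, hs⟩ := Rr_key θ p c n (har n) (Bs n) (AJ n) (hAJB n) (hker n) (hint n) ha ha'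
      (fun x hx => by rw [← hax x hx, ← hax' x hx])
    exact chi_sub_mem I χ p hpI hs
  choose τs hτs using hEX
  -- the Cauchy sequence and its limit
  have hlim : ∀ g, ∃ l : O, ∀ n, χ (τs (n + c) g) - l ∈ I ^ n := by
    intro g
    obtain ⟨l, hl⟩ := IsPrecomplete.prec' (I := I) (fun n => χ (τs (n + c) g)) (by
      intro m n hmn
      rw [SModEq.sub_mem, smul_eq_mul, Ideal.mul_top]
      have := huniq (m + c) g _ _ (hτs (m + c) g (m + c) le_rfl)
        (hτs (n + c) g (m + c) (by omega))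
      simpa using this)
    refine ⟨l, fun n => ?_⟩
    have := hl n
    rwa [SModEq.sub_mem, smul_eq_mul, Ideal.mul_top] at this
  choose t ht using hlim
  have happrox : ∀ n g τ, Rel Bs T Tgen e n g τ → t g - χ τ ∈ I ^ (n - c) := by
    intro n g τ hrel
    by_cases hn : n ≤ c
    · rw [Nat.sub_eq_zero_of_le hn, pow_zero, Ideal.one_eq_top]
      trivial
    · obtain ⟨m, rfl⟩ : ∃ m, n = m + c := ⟨n - c, by omega⟩
      rw [Nat.add_sub_cancel]
      have h1 := ht g m
      have h2 := huniq (m + c) g _ _ (hτs (m + c) g (m + c) le_rfl) hrel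
      rw [Nat.add_sub_cancel] at h2
      have : t g - χ τ = (χ (τs (m + c) g) - χ τ) - (χ (τs (m + c) g) - t g) := by ring
      rw [this]
      exact sub_mem h2 h1
  have hex : ∀ n g, ∃ τ, Rel Bs T Tgen e n g τ := fun n g => ⟨τs n g, hτs n g n le_rfl⟩
  have hzero : ∀ {x : O}, (∀ n, x ∈ I ^ (n - c)) → x = 0 :=
    fun h => eq_zero_of_forall_mem_pow I c h
  have h_one : t 1 = 2 := by
    have : t 1 - 2 = 0 := hzero fun n => by
      have := happrox n 1 2 (rel_one p hpB he1 n)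
      rwa [map_ofNat] at this
    exact sub_eq_zero.mp this
  have h_congr : ∀ n g g', (∀ x ∈ Bs n, Aop e n g x = Aop e n g' x) →
      t g - t g' ∈ I ^ (n - c) := by
    intro n g g' h
    obtain ⟨τ, hτ⟩ := hex n g
    have h1 := happrox n g τ hτ
    have h2 := happrox n g' τ (rel_of_eqOn h hτ)
    have : t g - t g' = (t g - χ τ) - (t g' - χ τ) := by ring
    rw [this]
    exact sub_mem h1 h2
  have h_comm : ∀ g h, t (g * h) = t (h * g) := by
    intro g h
    have : t (g * h) - t (h * g) = 0 := hzero fun n => by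
      obtain ⟨τ, hτ⟩ := hex n (g * h)
      have h1 := happrox n _ τ hτ
      have h2 := happrox n _ τ (rel_comm p hBG hpB hGH hemul hτ)
      have : t (g * h) - t (h * g) = (t (g * h) - χ τ) - (t (h * g) - χ τ) := by ring
      rw [this]
      exact sub_mem h1 h2
    exact sub_eq_zero.mp this
  have hE3 : ∀ n g h,
      t (g * h) + (e n h : O) * t (g * h⁻¹) - t h * t g ∈ I ^ (n - c) := by
    intro n g h
    obtain ⟨τ₁, h1⟩ := hex n (g * h)
    obtain ⟨τ₂, h2⟩ := hex n (g * h⁻¹)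
    obtain ⟨τ₃, h3⟩ := hex n g
    obtain ⟨τ₄, h4⟩ := hex n h
    obtain ⟨s, hs⟩ := rel_mul θ p c har hBG hpB AJ hAJB hker hint hGH hemul h1 h2 h3 h4
    have hχ : χ τ₁ + (e n h : O) * χ τ₂ - χ τ₄ * χ τ₃ ∈ I ^ (n - c) := by
      have := chi_sub_mem I χ p hpI (τ := τ₁ + (e n h : TT) * τ₂ - τ₄ * τ₃) (τ' := 0) (s := s)
        (by rw [sub_zero]; exact hs)
      simpa using this
    have a1 := happrox n _ _ h1
    have a2 := happrox n _ _ h2
    have a3 := happrox n _ _ h3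
    have a4 := happrox n _ _ h4
    have : t (g * h) + (e n h : O) * t (g * h⁻¹) - t h * t g
        = (χ τ₁ + (e n h : O) * χ τ₂ - χ τ₄ * χ τ₃) + (t (g * h) - χ τ₁)
          + (e n h : O) * (t (g * h⁻¹) - χ τ₂) - (t h - χ τ₄) * t g
          - χ τ₄ * (t g - χ τ₃) := by ring
    rw [this]
    exact sub_mem (sub_mem (add_mem (add_mem hχ a1) (Ideal.mul_mem_left _ _ a2))
      (Ideal.mul_mem_right _ _ a4)) (Ideal.mul_mem_left _ _ a3)
  have h_eps : ∀ n g, t g ^ 2 - t (g ^ 2) - 2 * (e n g : O) ∈ I ^ (n - c) := by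
    intro n g
    have := hE3 n g g
    rw [mul_inv_cancel, h_one, ← pow_two g] at this
    have h' : t g ^ 2 - t (g ^ 2) - 2 * (e n g : O)
        = -(t (g ^ 2) + (e n g : O) * 2 - t g * t g) := by ring
    rw [h']
    exact neg_mem this
  have h_t3 : ∀ g h,
      2 * t (g * h) + (t h ^ 2 - t (h ^ 2)) * t (g * h⁻¹) = 2 * (t g * t h) := by
    intro g h
    have : 2 * t (g * h) + (t h ^ 2 - t (h ^ 2)) * t (g * h⁻¹) - 2 * (t g * t h) = 0 :=
      hzero fun n => by
        have h1 := hE3 n g h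
        have h2 := h_eps n h
        have : 2 * t (g * h) + (t h ^ 2 - t (h ^ 2)) * t (g * h⁻¹) - 2 * (t g * t h)
            = 2 * (t (g * h) + (e n h : O) * t (g * h⁻¹) - t h * t g)
              + (t h ^ 2 - t (h ^ 2) - 2 * (e n h : O)) * t (g * h⁻¹) := by ring
        rw [this]
        exact add_mem (Ideal.mul_mem_left _ _ h1) (Ideal.mul_mem_right _ _ h2)
    exact sub_eq_zero.mp this
  have h_t4 : ∀ g h, 2 * (t (g * h) ^ 2 - t ((g * h) ^ 2))
      = (t g ^ 2 - t (g ^ 2)) * (t h ^ 2 - t (h ^ 2)) := by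
    intro g h
    have : 2 * (t (g * h) ^ 2 - t ((g * h) ^ 2))
        - (t g ^ 2 - t (g ^ 2)) * (t h ^ 2 - t (h ^ 2)) = 0 := hzero fun n => by
      have a := h_eps n (g * h)
      have b := h_eps n g
      have d := h_eps n h
      have hE : ((e n (g * h) : O) - (e n g : O) * (e n h : O)) ∈ I ^ (n - c) := by
        obtain ⟨k, hk⟩ := hemul n g h
        have h1 : ((e n (g * h) : O) - (e n g : O) * (e n h : O)) = ((p : O) ^ n) * (k : O) := by
          have := congrArg (Int.cast : ℤ → O) hk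
          push_cast at this
          exact this
        rw [h1]
        exact Ideal.mul_mem_right _ _
          (Ideal.pow_le_pow_right (Nat.sub_le n c) (Ideal.pow_mem_pow hpI n))
      have : 2 * (t (g * h) ^ 2 - t ((g * h) ^ 2))
          - (t g ^ 2 - t (g ^ 2)) * (t h ^ 2 - t (h ^ 2))
          = 2 * (t (g * h) ^ 2 - t ((g * h) ^ 2) - 2 * (e n (g * h) : O))
            - (t g ^ 2 - t (g ^ 2) - 2 * (e n g : O)) * (t h ^ 2 - t (h ^ 2))
            - 2 * (e n g : O) * (t h ^ 2 - t (h ^ 2) - 2 * (e n h : O))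
            + 4 * ((e n (g * h) : O) - (e n g : O) * (e n h : O)) := by ring
      rw [this]
      exact add_mem (sub_mem (sub_mem (Ideal.mul_mem_left _ _ a) (Ideal.mul_mem_right _ _ b))
        (Ideal.mul_mem_left _ _ d)) (Ideal.mul_mem_left _ _ hE)
    exact sub_eq_zero.mp this
  refine ⟨t, happrox, h_one, h_comm, h_t3, h_t4, h_eps, h_congr, ?_, ?_, ?_⟩
  · intro g g' h
    exact sub_eq_zero.mp (hzero fun n => h_congr n g g' (h n))
  · intro g h
    have : t g - 0 = 0 := hzero fun n => by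
      have := happrox n g 0 (rel_zero (h n))
      simpa using this
    simpa using this
  · intro g τ h
    exact sub_eq_zero.mp (hzero fun n => happrox n g τ (h n))

end Limit

end Fermat.Agent.S30.H86
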