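/-
S30 (helper86): the AMBIENT Lucas step for hypothesis `hEX` of `exists_pseudoTrace`.

`B` a `G`-stable subgroup of an abelian group `J` with additive `G`-action, `T` an additive
endomorphism of `J`, and `h ∈ G` with `h² - T h + ℓ = 0` ON `B`.  Then for `x ∈ B`
`h ^ m • x + ℓ ^ m • (h ^ m)⁻¹ • x = V_m(T, ℓ) x`, and if `g` acts on `B` as `h ^ m` and the
integer `e` acts on `B` as `ℓ ^ m`, then `g • x + e • g⁻¹ • x = aeval T (lucasPoly ℓ m) x`.

(No `T`-stability of `B` and no subtype action are needed; compare the landed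
`Fermat.Agent.S31.H35.smul_add_eq_aeval_lucasPoly`, which is the same statement for a type.)
-/
import Mathlib
import Fermat.Agent.S31.H35.LucasPoly
import Fermat.Agent.S30.H86.TraceLimit

set_option autoImplicit false

open Polynomial

namespace Fermat.Agent.S30.H86

open Fermat.Agent.S31.H35 (lucasV lucasPoly aeval_lucasPoly lucasV_add_two)

variable {G : Type*} [Group G] {J : Type*} [AddCommGroup J] [DistribMulAction G J]

/-- Ambient Lucas identity, sequence form. -/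
theorem pow_smul_add_eq_lucasV_of_mem (B : AddSubgroup J)
    (hBG : ∀ (g : G) (x : J), x ∈ B → g • x ∈ B) (h : G) (T : AddMonoid.End J) (ℓ : ℤ)
    (hrel : ∀ x ∈ B, h • h • x - T (h • x) + ℓ • x = 0) (m : ℕ) :
    ∀ x ∈ B, h ^ m • x + ℓ ^ m • (h ^ m)⁻¹ • x
      = lucasV T ((ℓ : ℤ) : AddMonoid.End J) m x := by
  induction m using Nat.strong_induction_on with
  | _ m ih =>
    intro x hx
    match m, ih with
    | 0, _ =>
      have h2 : (lucasV T ((ℓ : ℤ) : AddMonoid.End J) 0) = 1 + 1 := by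
        rw [Fermat.Agent.S31.H35.lucasV_zero]; norm_num
      rw [h2, pow_zero, pow_zero, inv_one, one_smul, one_smul]
      rfl
    | 1, _ =>
      have h1 := hrel (h⁻¹ • x) (hBG h⁻¹ x hx)
      rw [smul_inv_smul] at h1
      rw [Fermat.Agent.S31.H35.lucasV_one, pow_one, pow_one]
      have : h • x + ℓ • h⁻¹ • x - T x = 0 := by rw [← h1]; abel
      exact sub_eq_zero.mp this
    | (k + 2), ih =>
      have ih1 := ih (k + 1) (by omega) x hx
      have ih0 := ih k (by omega) x hx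
      -- the two relations
      have r1 := hrel (h ^ k • x) (hBG _ x hx)
      have r2 := hrel ((h ^ (k + 2))⁻¹ • x) (hBG _ x hx)
      have e1 : h • h • h ^ k • x = h ^ (k + 2) • x := by
        rw [← mul_smul, ← mul_smul, pow_succ', pow_succ', mul_assoc]
      have e2 : h • h ^ k • x = h ^ (k + 1) • x := by
        rw [← mul_smul, pow_succ']
      have e3 : h • (h ^ (k + 2))⁻¹ • x = (h ^ (k + 1))⁻¹ • x := by
        rw [← mul_smul]
        congr 1
        rw [pow_succ (n := k + 1), mul_inv_rev, mul_inv_cancel_left]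
      have e4 : h • h • (h ^ (k + 2))⁻¹ • x = (h ^ k)⁻¹ • x := by
        rw [e3, ← mul_smul]
        congr 1
        rw [pow_succ (n := k), mul_inv_rev, mul_inv_cancel_left]
      rw [e1, e2] at r1
      rw [e4, e3] at r2
      -- r1 : h^(k+2) • x - T (h^(k+1) • x) + ℓ • h^k • x = 0
      -- r2 : (h^k)⁻¹ • x - T ((h^(k+1))⁻¹ • x) + ℓ • (h^(k+2))⁻¹ • x = 0
      have s1 : h ^ (k + 2) • x = T (h ^ (k + 1) • x) - ℓ • h ^ k • x := by
        have : h ^ (k + 2) • x - (T (h ^ (k + 1) • x) - ℓ • h ^ k • x) = 0 := by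
          rw [← r1]; abel
        exact sub_eq_zero.mp this
      have s2 : ℓ • (h ^ (k + 2))⁻¹ • x = T ((h ^ (k + 1))⁻¹ • x) - (h ^ k)⁻¹ • x := by
        have : ℓ • (h ^ (k + 2))⁻¹ • x - (T ((h ^ (k + 1))⁻¹ • x) - (h ^ k)⁻¹ • x) = 0 := by
          rw [← r2]; abel
        exact sub_eq_zero.mp this
      have s3 : ℓ ^ (k + 2) • (h ^ (k + 2))⁻¹ • x
          = T (ℓ ^ (k + 1) • (h ^ (k + 1))⁻¹ • x) - ℓ • (ℓ ^ k • (h ^ k)⁻¹ • x) := by
        rw [pow_succ (n := k + 1), mul_smul, s2, smul_sub, map_zsmul, ← mul_smul,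
          ← pow_succ']
      have s4 : lucasV T ((ℓ : ℤ) : AddMonoid.End J) (k + 2) x
          = T (lucasV T ((ℓ : ℤ) : AddMonoid.End J) (k + 1) x)
            - ℓ • (lucasV T ((ℓ : ℤ) : AddMonoid.End J) k x) := by
        rw [lucasV_add_two]
        rfl
      rw [s4, ← ih1, ← ih0, s1, s3, map_add, smul_add]
      abel

/-- Ambient Lucas identity in the shape of `rel_of_aeval`: if `g` acts on `B` as `h ^ m` and
the integer `eg` acts on `B` as `ℓ ^ m`, then `g + eg • g⁻¹ = V_m(T, ℓ)` on `B`. -/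
theorem smul_add_eq_aeval_lucasPoly_of_mem (B : AddSubgroup J)
    (hBG : ∀ (g : G) (x : J), x ∈ B → g • x ∈ B) (g h : G) (T : AddMonoid.End J) (ℓ eg : ℤ)
    (hrel : ∀ x ∈ B, h • h • x - T (h • x) + ℓ • x = 0) (m : ℕ)
    (hg : ∀ x ∈ B, g • x = h ^ m • x) (he : ∀ x ∈ B, eg • x = ℓ ^ m • x) :
    ∀ x ∈ B, g • x + eg • g⁻¹ • x = aeval T (lucasPoly ℓ m) x := by
  intro x hx
  have hginv : g⁻¹ • x = (h ^ m)⁻¹ • x := by
    have h1 := hg (g⁻¹ • x) (hBG g⁻¹ x hx)
    rw [smul_inv_smul] at h1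
    conv_rhs => rw [h1]
    rw [inv_smul_smul]
  rw [hg x hx, he _ (hBG g⁻¹ x hx), hginv, aeval_lucasPoly]
  exact pow_smul_add_eq_lucasV_of_mem B hBG h T ℓ hrel m x hx

/-- The realisation produced by a Frobenius power: the shape of hypothesis `hEX` of
`exists_pseudoTrace` at one level. -/
theorem rel_of_frobenius_pow {TT : Type*} [CommRing TT] {ι : Type*}
    {Bs : ℕ → AddSubgroup J} {T : ι → AddMonoid.End J} {Tgen : ι → TT} {e : ℕ → G → ℤ}
    (hBG : ∀ n (g : G) (x : J), x ∈ Bs n → g • x ∈ Bs n) {n : ℕ} (g h : G) (i : ι) (ℓ : ℤ)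
    (hrel : ∀ x ∈ Bs n, h • h • x - T i (h • x) + ℓ • x = 0) (m : ℕ)
    (hg : ∀ x ∈ Bs n, g • x = h ^ m • x) (he : ∀ x ∈ Bs n, e n g • x = ℓ ^ m • x) :
    Rel Bs T Tgen e n g (aeval (Tgen i) (lucasPoly ℓ m)) :=
  rel_of_aeval i (lucasPoly ℓ m)
    (smul_add_eq_aeval_lucasPoly_of_mem (Bs n) (hBG n) g h (T i) ℓ (e n g) hrel m hg he)

end Fermat.Agent.S30.H86
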