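/-
S30 (helper86): abstract corollaries of the pseudo-trace limit lemma `exists_pseudoTrace`.

* `e_pow_dvd`, `hEX_of_frobenius`: hypothesis `hEX` of `exists_pseudoTrace` from "Frobenius
  density" data: for every `n, g` a generator index `i`, an integer `ℓ`, an element `σ` and an
  exponent `m` such that, on all levels `k ≤ n`, `σ² - T_i σ + ℓ = 0` on `Bs k`,
  `e k σ ≡ ℓ`, `g = σ ^ m` on `Bs k` and `e k (σ ^ m) ≡ e k g` modulo `p ^ k`.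
* `TraceSpec.eq_zero_of_involution`   (T5): `t c = 0` for an involution `c` with `e n c ≡ -1`;
* `TraceSpec.eq_of_quadratic`         (T6): `t σ = χ (Tgen i)` and `t σ² - t (σ²) = 2 ℓ` for
  `σ` with `σ² - T_i σ + ℓ = 0` on all `Bs n` and `e n σ ≡ ℓ`;
* `TraceSpec.mul_left_eq`             (T7): `t (σ g) = t g` for `σ` trivial on all `Bs n` with
  `e n σ ≡ 1`;
* `TraceSpec.mul_left_sub_mem`        (T8): `t (σ g) - t g ∈ I ^ n` for `σ` trivial on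
  `Bs (n + c)` with `e (n + c) σ ≡ 1`.

Mathlib + `TraceLimit` + `TraceLucas`.
-/
import Mathlib
import Fermat.Agent.S30.H86.TraceLimit
import Fermat.Agent.S30.H86.TraceLucas

set_option autoImplicit false

open Polynomial

namespace Fermat.Agent.S30.H86

open Fermat.Agent.S31.H35 (lucasPoly)

variable {G : Type*} [Group G] {J : Type*} [AddCommGroup J] [DistribMulAction G J]
variable {TT : Type*} [CommRing TT] {ι : Type*}
variable {Bs : ℕ → AddSubgroup J} {T : ι → AddMonoid.End J} {Tgen : ι → TT} {e : ℕ → G → ℤ}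

/-- Powers: if `e n` is multiplicative modulo `p ^ n` and `e n σ ≡ ℓ`, then
`e n (σ ^ m) ≡ ℓ ^ m`. -/
theorem e_pow_dvd (p : ℕ) (he1 : ∀ n, ((p : ℤ) ^ n) ∣ e n 1 - 1)
    (hemul : ∀ n g h, ((p : ℤ) ^ n) ∣ e n (g * h) - e n g * e n h) (n : ℕ) (σ : G) (ℓ : ℤ)
    (h : ((p : ℤ) ^ n) ∣ e n σ - ℓ) (m : ℕ) : ((p : ℤ) ^ n) ∣ e n (σ ^ m) - ℓ ^ m := by
  induction m with
  | zero => simpa using he1 n
  | succ m ih =>
    have h1 := hemul n (σ ^ m) σ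
    have : e n (σ ^ (m + 1)) - ℓ ^ (m + 1)
        = (e n (σ ^ m * σ) - e n (σ ^ m) * e n σ) + (e n (σ ^ m) - ℓ ^ m) * e n σ
          + ℓ ^ m * (e n σ - ℓ) := by
      rw [pow_succ σ m]; ring
    rw [this]
    exact dvd_add (dvd_add h1 (Dvd.dvd.mul_right ih _)) (Dvd.dvd.mul_left h _)

/-- **Hypothesis `hEX` from Frobenius density.** -/
theorem hEX_of_frobenius (p : ℕ)
    (hBG : ∀ n (g : G) (x : J), x ∈ Bs n → g • x ∈ Bs n)
    (hpB : ∀ n (x : J), x ∈ Bs n → (p ^ n) • x = 0)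
    (he1 : ∀ n, ((p : ℤ) ^ n) ∣ e n 1 - 1)
    (hemul : ∀ n g h, ((p : ℤ) ^ n) ∣ e n (g * h) - e n g * e n h)
    (hdens : ∀ (n : ℕ) (g : G), ∃ (i : ι) (ℓ : ℤ) (σ : G) (m : ℕ),
      (∀ k ≤ n, ∀ x ∈ Bs k, σ • σ • x - T i (σ • x) + ℓ • x = 0) ∧
      (∀ k ≤ n, ((p : ℤ) ^ k) ∣ e k σ - ℓ) ∧
      (∀ k ≤ n, ∀ x ∈ Bs k, g • x = σ ^ m • x) ∧
      (∀ k ≤ n, ((p : ℤ) ^ k) ∣ e k (σ ^ m) - e k g)) :
    ∀ n g, ∃ τ : TT, ∀ k ≤ n, Rel Bs T Tgen e k g τ := by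
  intro n g
  obtain ⟨i, ℓ, σ, m, h1, h2, h3, h4⟩ := hdens n g
  refine ⟨aeval (Tgen i) (lucasPoly ℓ m), fun k hk => ?_⟩
  refine rel_of_frobenius_pow hBG g σ i ℓ (h1 k hk) m (h3 k hk) fun x hx => ?_
  refine zsmul_eq_of_dvd (hpB k x hx) ?_
  have h5 := e_pow_dvd p he1 hemul k σ ℓ (h2 k hk) m
  have : e k g - ℓ ^ m = (e k (σ ^ m) - ℓ ^ m) - (e k (σ ^ m) - e k g) := by ring
  rw [this]
  exact dvd_sub h5 (h4 k hk)

section Transfer

variable {O : Type*} [CommRing O] {I : Ideal O} {χ : TT →+* O} {c : ℕ} {t : G → O}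

/-- **(T5)** an involution on which `e n` is `-1` modulo `p ^ n` has trace `0`. -/
theorem TraceSpec.eq_zero_of_involution (ht : TraceSpec I χ c Bs T Tgen e t) (p : ℕ)
    (hBG : ∀ n (g : G) (x : J), x ∈ Bs n → g • x ∈ Bs n)
    (hpB : ∀ n (x : J), x ∈ Bs n → (p ^ n) • x = 0)
    (g : G) (hg : g * g = 1) (heg : ∀ n, ((p : ℤ) ^ n) ∣ e n g + 1) : t g = 0 := by
  obtain ⟨-, -, -, -, -, -, -, -, hzero, -⟩ := ht
  refine hzero g fun n x hx => ?_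
  have hinv : g⁻¹ = g := inv_eq_of_mul_eq_one_right hg
  have h1 : e n g • g⁻¹ • x = (-1 : ℤ) • g⁻¹ • x :=
    zsmul_eq_of_dvd (hpB n _ (hBG n g⁻¹ x hx)) (by simpa using heg n)
  change g • x + e n g • g⁻¹ • x = 0
  rw [h1, hinv, neg_smul, one_smul, add_neg_cancel]

/-- On `Bs n`, an element satisfying the quadratic relation with `e n σ ≡ ℓ` is realised by
the generator. -/
theorem rel_gen_of_quadratic (p : ℕ)
    (hBG : ∀ n (g : G) (x : J), x ∈ Bs n → g • x ∈ Bs n)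
    (hpB : ∀ n (x : J), x ∈ Bs n → (p ^ n) • x = 0) {n : ℕ} (σ : G) (i : ι) (ℓ : ℤ)
    (hrel : ∀ x ∈ Bs n, σ • σ • x - T i (σ • x) + ℓ • x = 0)
    (hℓ : ((p : ℤ) ^ n) ∣ e n σ - ℓ) : Rel Bs T Tgen e n σ (Tgen i) := by
  refine rel_gen i fun x hx => ?_
  have h1 := hrel (σ⁻¹ • x) (hBG n σ⁻¹ x hx)
  rw [smul_inv_smul] at h1
  have h2 : e n σ • σ⁻¹ • x = ℓ • σ⁻¹ • x :=
    zsmul_eq_of_dvd (hpB n _ (hBG n σ⁻¹ x hx)) hℓ
  change σ • x + e n σ • σ⁻¹ • x = T i x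
  rw [h2]
  have : σ • x + ℓ • σ⁻¹ • x - T i x = 0 := by rw [← h1]; abel
  exact sub_eq_zero.mp this

/-- **(T6)** the trace and "determinant" at an element satisfying the quadratic relation. -/
theorem TraceSpec.eq_of_quadratic [IsHausdorff I O] (ht : TraceSpec I χ c Bs T Tgen e t)
    (p : ℕ) (hpI : (p : O) ∈ I)
    (hBG : ∀ n (g : G) (x : J), x ∈ Bs n → g • x ∈ Bs n)
    (hpB : ∀ n (x : J), x ∈ Bs n → (p ^ n) • x = 0) (σ : G) (i : ι) (ℓ : ℤ)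
    (hrel : ∀ n, ∀ x ∈ Bs n, σ • σ • x - T i (σ • x) + ℓ • x = 0)
    (hℓ : ∀ n, ((p : ℤ) ^ n) ∣ e n σ - ℓ) :
    t σ = χ (Tgen i) ∧ t σ ^ 2 - t (σ ^ 2) = 2 * (ℓ : O) := by
  obtain ⟨-, -, -, -, -, heps, -, -, -, heq⟩ := ht
  refine ⟨heq σ (Tgen i) fun n => rel_gen_of_quadratic p hBG hpB σ i ℓ (hrel n) (hℓ n), ?_⟩
  have : t σ ^ 2 - t (σ ^ 2) - 2 * (ℓ : O) = 0 := eq_zero_of_forall_mem_pow I c fun n => by
    have h1 := heps n σ
    have h2 : ((e n σ : O) - (ℓ : O)) ∈ I ^ (n - c) := by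
      obtain ⟨k, hk⟩ := hℓ n
      have h3 : ((e n σ : O) - (ℓ : O)) = ((p : O) ^ n) * (k : O) := by
        have := congrArg (Int.cast : ℤ → O) hk
        push_cast at this
        exact this
      rw [h3]
      exact Ideal.mul_mem_right _ _
        (Ideal.pow_le_pow_right (Nat.sub_le n c) (Ideal.pow_mem_pow hpI n))
    have : t σ ^ 2 - t (σ ^ 2) - 2 * (ℓ : O)
        = (t σ ^ 2 - t (σ ^ 2) - 2 * (e n σ : O)) + 2 * ((e n σ : O) - (ℓ : O)) := by ring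
    rw [this]
    exact add_mem h1 (Ideal.mul_mem_left _ _ h2)
  exact sub_eq_zero.mp this

/-- If `σ` acts trivially on `Bs n` and `e n σ ≡ 1`, then `σ g` and `g` have the same operator
`g + e n g • g⁻¹` on `Bs n`. -/
theorem Aop_mul_left_eq (p : ℕ)
    (hBG : ∀ n (g : G) (x : J), x ∈ Bs n → g • x ∈ Bs n)
    (hpB : ∀ n (x : J), x ∈ Bs n → (p ^ n) • x = 0)
    (hemul : ∀ n g h, ((p : ℤ) ^ n) ∣ e n (g * h) - e n g * e n h) {n : ℕ} (σ : G)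
    (hσ : ∀ x ∈ Bs n, σ • x = x) (heσ : ((p : ℤ) ^ n) ∣ e n σ - 1) (g : G) :
    ∀ x ∈ Bs n, Aop e n (σ * g) x = Aop e n g x := by
  intro x hx
  have h1 : σ⁻¹ • x = x := by
    conv_lhs => rw [← hσ x hx]
    rw [inv_smul_smul]
  have h2 : e n (σ * g) • g⁻¹ • x = e n g • g⁻¹ • x := by
    refine zsmul_eq_of_dvd (hpB n _ (hBG n g⁻¹ x hx)) ?_
    have : e n (σ * g) - e n g = (e n (σ * g) - e n σ * e n g) + (e n σ - 1) * e n g := by ring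
    rw [this]
    exact dvd_add (hemul n σ g) (Dvd.dvd.mul_right heσ _)
  change (σ * g) • x + e n (σ * g) • (σ * g)⁻¹ • x = g • x + e n g • g⁻¹ • x
  rw [mul_smul, hσ _ (hBG n g x hx), mul_inv_rev, mul_smul, h1, h2]

/-- **(T7)** an element acting trivially on all `Bs n`, with `e n σ ≡ 1`, can be removed. -/
theorem TraceSpec.mul_left_eq (ht : TraceSpec I χ c Bs T Tgen e t) (p : ℕ)
    (hBG : ∀ n (g : G) (x : J), x ∈ Bs n → g • x ∈ Bs n)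
    (hpB : ∀ n (x : J), x ∈ Bs n → (p ^ n) • x = 0)
    (hemul : ∀ n g h, ((p : ℤ) ^ n) ∣ e n (g * h) - e n g * e n h) (σ : G)
    (hσ : ∀ n, ∀ x ∈ Bs n, σ • x = x) (heσ : ∀ n, ((p : ℤ) ^ n) ∣ e n σ - 1) (g : G) :
    t (σ * g) = t g := by
  obtain ⟨-, -, -, -, -, -, -, hext, -, -⟩ := ht
  exact hext (σ * g) g fun n => Aop_mul_left_eq p hBG hpB hemul σ (hσ n) (heσ n) g

/-- **(T8)** an element acting trivially on `Bs (n + c)`, with `e (n + c) σ ≡ 1`, can be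
removed modulo `I ^ n`. -/
theorem TraceSpec.mul_left_sub_mem (ht : TraceSpec I χ c Bs T Tgen e t) (p : ℕ)
    (hBG : ∀ n (g : G) (x : J), x ∈ Bs n → g • x ∈ Bs n)
    (hpB : ∀ n (x : J), x ∈ Bs n → (p ^ n) • x = 0)
    (hemul : ∀ n g h, ((p : ℤ) ^ n) ∣ e n (g * h) - e n g * e n h) (n : ℕ) (σ : G)
    (hσ : ∀ x ∈ Bs (n + c), σ • x = x) (heσ : ((p : ℤ) ^ (n + c)) ∣ e (n + c) σ - 1) (g : G) :
    t (σ * g) - t g ∈ I ^ n := by
  obtain ⟨-, -, -, -, -, -, hcongr, -, -, -⟩ := ht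
  have := hcongr (n + c) (σ * g) g (Aop_mul_left_eq p hBG hpB hemul σ hσ heσ g)
  rwa [Nat.add_sub_cancel] at this

end Transfer

end Fermat.Agent.S30.H86
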