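/-
S30 (helper86): (TR-INST) — the pseudo-trace attached to a character of the Hecke algebra,
from the leaves of the S31 top (`Fermat/Agent/S31/H34/Leaves.lean`).

`exists_trace_of_leaves`: for `p ∈ S`, the primes of `N` in `S`, a complete local ring `R` with
`p ∈ 𝔪_R` and `χ : heckeAlgebra N 2 S →+* R` there is `t : Gal(ℚ̄/ℚ) → R` with
(t1) `t 1 = 2`, (t2) `t (g h) = t (h g)`, (t3), (t4) the trace–determinant identities,
(t5) `t c = 0`, (t6) `t Frob_ℓ = χ T_ℓ` and `t σ² - t (σ²) = 2 ℓ` for `ℓ ∉ S`,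
(t7) invariance under inertia at `q ∤ N p`, (t8) continuity,
PROVIDED the leaves `AJLeaf N p`, `ESLeaf N p`, `StableLeaf N p`, `HALeaf N p S`.

It is the instance of the abstract `exists_pseudoTrace` with
`G = Gal(ℚ̄/ℚ)`, `J = J₀(N)(ℚ̄)`, `TT = heckeAlgebra N 2 S`, `L = Hom_par(Γ₀(N), ℤ)`,
`Bs n` = the stable subgroup containing the image of `AJ n`, the generators indexed by the
good primes, `e n = cycloInt p n` (helper76), and `hEX` from cyclic Frobenius density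
(helper69) through `hEX_of_frobenius`; (t5)–(t8) are the transfer lemmas of `TraceCor.lean`.
-/
import Mathlib
import Fermat.Prelude.Def_CuspForm_HeckeGaloisRepDatum
import Fermat.Prelude.Def_GaloisRep_ComplexConjugation
import Fermat.Agent.S31.H34.Leaves
import Fermat.Agent.S31.H76.CycLeaf
import Fermat.Agent.S29.H69.FrobCosetPos
import Fermat.Agent.S41.H40.Lattice
import Fermat.Agent.S29.H60.GaloisHecke
import Fermat.Agent.S30.H86.TraceCor

set_option autoImplicit false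

open CongruenceSubgroup ModularCurve ModularCurve.Period CuspForm Polynomial
open Fermat.Agent.S16.H75 (heckeHom)
open Fermat.Agent.S31.H34 (Lat AJLeaf ESLeaf StableLeaf HALeaf)
open Fermat.Agent.S31.H76 (cycloInt cycloInt_one cycloInt_mul cycloInt_of_isFrobeniusAt
  cycloInt_of_mem_inertia cycloInt_complexConjugation exists_finite_level_cycloInt)

namespace Fermat.Agent.S30.H86

local notation "Qb" => AlgebraicClosure ℚ
local notation "Γ" => (AlgebraicClosure ℚ ≃ₐ[ℚ] AlgebraicClosure ℚ)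

/-- The index type of the good primes: `ℓ ∤ N`, `ℓ ∉ S`. -/
abbrev GoodPrime (N : ℕ) (S : Finset ℕ) : Type :=
  {ℓ : ℕ // ℓ.Prime ∧ ¬ ℓ ∣ N ∧ ℓ ∉ (↑S : Set ℕ)}

/-- The Hecke operators on `J₀(N)(ℚ̄)` at the good primes, as additive endomorphisms. -/
noncomputable def heckeJ (N : ℕ) [NeZero N] (S : Finset ℕ) (i : GoodPrime N S) :
    AddMonoid.End (JZero N) :=
  (heckeOperatorBar N ⟨i.1, i.2.1⟩).toAddMonoidHom

theorem heckeJ_apply (N : ℕ) [NeZero N] (S : Finset ℕ) (i : GoodPrime N S) (x : JZero N) :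
    heckeJ N S i x = heckeOperatorBar N ⟨i.1, i.2.1⟩ x := rfl

/-- The Hecke operators in the Hecke algebra at the good primes. -/
noncomputable def heckeGenT (N : ℕ) [NeZero N] (S : Finset ℕ) (i : GoodPrime N S) :
    heckeAlgebra N 2 (↑S : Set ℕ) :=
  heckeAlgebra.T i.2.1 i.2.2.1 i.2.2.2

/-- **(TR-INST)** the pseudo-trace of a character of the Hecke algebra, from the leaves. -/
theorem exists_trace_of_leaves (p : ℕ) [Fact p.Prime] (N : ℕ) [NeZero N] (S : Finset ℕ)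
    (hpS : p ∈ S) (hNS : ∀ q : ℕ, q.Prime → q ∣ N → q ∈ S)
    (R : Type*) [CommRing R] [IsLocalRing R] [IsAdicComplete (IsLocalRing.maximalIdeal R) R]
    (hpR : (p : R) ∈ IsLocalRing.maximalIdeal R)
    (χ : CuspForm.heckeAlgebra N 2 (↑S : Set ℕ) →+* R)
    (hAJ : AJLeaf N p) (hES : ESLeaf N p) (hSt : StableLeaf N p) (hHA : HALeaf N p S) :
    ∃ t : Γ → R,
      t 1 = 2 ∧
      (∀ g h : Γ, t (g * h) = t (h * g)) ∧
      (∀ g h : Γ, 2 * t (g * h) + (t h ^ 2 - t (h ^ 2)) * t (g * h⁻¹) = 2 * (t g * t h)) ∧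
      (∀ g h : Γ, 2 * (t (g * h) ^ 2 - t ((g * h) ^ 2))
        = (t g ^ 2 - t (g ^ 2)) * (t h ^ 2 - t (h ^ 2))) ∧
      t complexConjugation = 0 ∧
      (∀ (ℓ : ℕ) (hℓ : ℓ.Prime) (hℓN : ¬ ℓ ∣ N) (hℓS : ℓ ∉ (↑S : Set ℕ)),
        ∀ A : ValuationSubring (AlgebraicClosure ℚ), A.LiesOverPrime ℓ →
          ∀ σ : Γ, A.IsFrobeniusAt σ ℓ →
            t σ = χ (CuspForm.heckeAlgebra.T hℓ hℓN hℓS) ∧
              t σ ^ 2 - t (σ ^ 2) = 2 * (ℓ : R)) ∧
      (∀ q : ℕ, q.Prime → ¬ q ∣ N → q ≠ p →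
        ∀ A : ValuationSubring (AlgebraicClosure ℚ), A.LiesOverPrime q →
          ∀ σ ∈ A.inertiaSubgroupIn ℚ, ∀ g : Γ, t (σ * g) = t g) ∧
      (∀ n : ℕ, ∃ L : IntermediateField ℚ (AlgebraicClosure ℚ), FiniteDimensional ℚ L ∧
        ∀ σ : Γ, (∀ x ∈ L, σ x = x) →
          ∀ g : Γ, t (σ * g) - t g ∈ IsLocalRing.maximalIdeal R ^ n) := by
  classical
  have hp : p.Prime := Fact.out
  obtain ⟨Φ, c, hΦT, hsat⟩ := hHA
  choose AJ hAJker hAJT using hAJ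
  -- the stable subgroups
  have hfin : Module.Finite ℤ (Lat N) := Fermat.Agent.S41.H40.finite_parabolicHoms_int N
  have hfg : ∀ n, ((AJ n).range).FG := by
    intro n
    have h1 : AddGroup.FG (Lat N) := Module.Finite.iff_addGroup_fg.1 hfin
    exact (AddGroup.fg_iff_addSubgroup_fg _).1 (AddGroup.fg_range (AJ n))
  have hAJp : ∀ n, ∀ x ∈ (AJ n).range, p ^ n • x = 0 := by
    rintro n _ ⟨ψ, rfl⟩
    rw [← map_nsmul]
    exact (hAJker n _).2 ⟨ψ, rfl⟩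
  choose Z E₂ hE₂fd hMZ hZp hZG hZT hZE using fun n => hSt n (AJ n).range (hfg n) (hAJp n)
  choose E₃ hE₃fd hE₃ using fun n => exists_finite_level_cycloInt p n
  -- primes outside `S`
  have hout : ∀ ℓ : ℕ, ℓ.Prime → ℓ ∉ S → ¬ ℓ ∣ N ∧ ℓ ≠ p ∧ ¬ ℓ ∣ N * p := by
    intro ℓ hℓ hℓS
    have h1 : ¬ ℓ ∣ N := fun h => hℓS (hNS ℓ hℓ h)
    have h2 : ℓ ≠ p := fun h => hℓS (h ▸ hpS)
    refine ⟨h1, h2, fun h => ?_⟩
    rcases (Nat.Prime.dvd_mul hℓ).1 h with h | h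
    · exact h1 h
    · exact h2 ((Nat.prime_dvd_prime_iff_eq hℓ hp).1 h)
  -- the data of the abstract lemma
  let θ : heckeAlgebra N 2 (↑S : Set ℕ) →+* AddMonoid.End (Lat N) :=
    (addMonoidEndRingEquivInt (Lat N)).symm.toRingHom.comp Φ
  have hθ : ∀ (τ : heckeAlgebra N 2 (↑S : Set ℕ)) (x : Lat N), θ τ x = Φ τ x := fun _ _ => rfl
  have hBG : ∀ n (g : Γ) (x : JZero N), x ∈ Z n → g • x ∈ Z n := fun n g x hx => hZG n g x hx
  have hpB : ∀ n (x : JZero N), x ∈ Z n → (p ^ n) • x = 0 := fun n x hx => hZp n x hx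
  have he1 : ∀ n, ((p : ℤ) ^ n) ∣ cycloInt p n 1 - 1 := fun n => cycloInt_one p n
  have hemul : ∀ n (g h : Γ),
      ((p : ℤ) ^ n) ∣ cycloInt p n (g * h) - cycloInt p n g * cycloInt p n h :=
    fun n g h => cycloInt_mul p n g h
  have har : ∀ (n : ℕ) (τ : heckeAlgebra N 2 (↑S : Set ℕ)),
      (∀ x : Lat N, ∃ y : Lat N, θ τ x = (p ^ n) • y) →
        ∃ s : heckeAlgebra N 2 (↑S : Set ℕ),
          τ = (p : heckeAlgebra N 2 (↑S : Set ℕ)) ^ (n - c) * s := by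
    intro n τ h
    by_cases hn : n ≤ c
    · exact ⟨τ, by rw [Nat.sub_eq_zero_of_le hn, pow_zero, one_mul]⟩
    · obtain ⟨m, rfl⟩ : ∃ m, n = m + c := ⟨n - c, by omega⟩
      obtain ⟨f', hf'⟩ := hsat m τ h
      refine ⟨f', ?_⟩
      rw [Nat.add_sub_cancel]
      conv_lhs => rw [hf']
      rw [nsmul_eq_mul, Nat.cast_pow]
  have hint : ∀ n (i : GoodPrime N S) (x : Lat N),
      heckeJ N S i (AJ n x) = AJ n (θ (heckeGenT N S i) x) := fun n i x =>
    hAJT n ⟨i.1, i.2.1⟩ i.2.2.1 x (Φ (heckeGenT N S i) x) (hΦT i.1 i.2.1 i.2.2.1 i.2.2.2 x)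
  have hGH : ∀ (i : GoodPrime N S) (g : Γ) (x : JZero N),
      heckeJ N S i (g • x) = g • heckeJ N S i x := fun i g x =>
    (Fermat.Agent.S29.H60.galois_smul_heckeOperatorBar N _ g x).symm
  -- Frobenius density
  have hdens : ∀ (n : ℕ) (g : Γ), ∃ (i : GoodPrime N S) (ℓ : ℤ) (σ : Γ) (m : ℕ),
      (∀ k ≤ n, ∀ x ∈ Z k, σ • σ • x - heckeJ N S i (σ • x) + ℓ • x = 0) ∧
      (∀ k ≤ n, ((p : ℤ) ^ k) ∣ cycloInt p k σ - ℓ) ∧
      (∀ k ≤ n, ∀ x ∈ Z k, g • x = σ ^ m • x) ∧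
      (∀ k ≤ n, ((p : ℤ) ^ k) ∣ cycloInt p k (σ ^ m) - cycloInt p k g) := by
    intro n g
    have hfd : ∀ k, FiniteDimensional ℚ (E₂ k ⊔ E₃ k : IntermediateField ℚ Qb) := fun k => by
      have := hE₂fd k
      have := hE₃fd k
      exact IntermediateField.finiteDimensional_sup _ _
    let E : IntermediateField ℚ Qb := ⨆ k ∈ Finset.range (n + 1), (E₂ k ⊔ E₃ k)
    have hEfd : FiniteDimensional ℚ E := IntermediateField.finiteDimensional_iSup_of_finset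
    have hEk : ∀ k ≤ n, E₂ k ⊔ E₃ k ≤ E := fun k hk =>
      le_iSup₂ (f := fun k (_ : k ∈ Finset.range (n + 1)) => E₂ k ⊔ E₃ k) k
        (Finset.mem_range.2 (Nat.lt_succ_of_le hk))
    obtain ⟨ℓ, A, h, i, hℓ, hBℓ, hA, hh, -, hi, -⟩ :=
      Fermat.Agent.S29.H69.exists_frobenius_pos_pow_mem_fixingSubgroup E g (S.sup id)
    have hℓS : ℓ ∉ S := fun hmem => absurd (Finset.le_sup (f := id) hmem) (not_le.2 hBℓ)
    obtain ⟨hℓN, hℓp, hℓNp⟩ := hout ℓ hℓ hℓS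
    have hℓS' : ℓ ∉ (↑S : Set ℕ) := fun hmem => hℓS (Finset.mem_coe.1 hmem)
    have hi0 : ∀ a ∈ E, (g⁻¹ * h ^ i) a = a := fun a ha =>
      (IntermediateField.mem_fixingSubgroup_iff E _).1 hi a ha
    refine ⟨⟨ℓ, hℓ, hℓN, hℓS'⟩, (ℓ : ℤ), h, i, ?_, ?_, ?_, ?_⟩
    · intro k _ x hx
      have h1 := (hES ℓ hℓ hℓNp A hA x ⟨k, hZp k x hx⟩).2 h hh
      rw [natCast_zsmul]
      exact h1
    · intro k _
      exact cycloInt_of_isFrobeniusAt p k hℓ hℓp hA hh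
    · intro k hk x hx
      have h1 := hZE k (g⁻¹ * h ^ i)
        (fun a ha => hi0 a (hEk k hk ((le_sup_left : E₂ k ≤ E₂ k ⊔ E₃ k) ha))) x hx
      rw [mul_smul, inv_smul_eq_iff] at h1
      exact h1.symm
    · intro k hk
      have h1 := ((hE₃ k (g⁻¹ * h ^ i)
        (fun a ha => hi0 a (hEk k hk ((le_sup_right : E₃ k ≤ E₂ k ⊔ E₃ k) ha)))).2 g).1
      rwa [mul_inv_cancel_left] at h1
  -- the limit
  obtain ⟨t, ht⟩ := exists_pseudoTrace (IsLocalRing.maximalIdeal R) χ p c hpR θ har Z hBG hpB AJ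
    (fun n x => hMZ n ⟨x, rfl⟩) (fun n x hx => (hAJker n x).1 hx) (heckeJ N S) (heckeGenT N S)
    hint hGH (fun n g => cycloInt p n g) he1 hemul
    (hEX_of_frobenius p hBG hpB he1 hemul hdens)
  have ht' := ht
  obtain ⟨-, h1, h2, h3, h4, -⟩ := ht'
  refine ⟨t, h1, h2, h3, h4, ?_, ?_, ?_, ?_⟩
  · exact ht.eq_zero_of_involution p hBG hpB complexConjugation complexConjugation_mul_self
      (fun n => cycloInt_complexConjugation p n)
  · intro ℓ hℓ hℓN hℓS A hA σ hσ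
    have hℓS0 : ℓ ∉ S := fun hmem => hℓS (Finset.mem_coe.2 hmem)
    obtain ⟨-, hℓp, hℓNp⟩ := hout ℓ hℓ hℓS0
    have h5 := ht.eq_of_quadratic p hpR hBG hpB σ (⟨ℓ, hℓ, hℓN, hℓS⟩ : GoodPrime N S) (ℓ : ℤ)
      (fun n x hx => by
        have h6 := (hES ℓ hℓ hℓNp A hA x ⟨n, hZp n x hx⟩).2 σ hσ
        rw [natCast_zsmul]
        exact h6)
      (fun n => cycloInt_of_isFrobeniusAt p n hℓ hℓp hA hσ)
    rw [Int.cast_natCast] at h5
    exact h5
  · intro q hq hqN hqp A hA σ hσ g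
    have hqNp : ¬ q ∣ N * p := fun h => by
      rcases (Nat.Prime.dvd_mul hq).1 h with h | h
      · exact hqN h
      · exact hqp ((Nat.prime_dvd_prime_iff_eq hq hp).1 h)
    exact ht.mul_left_eq p hBG hpB hemul σ
      (fun n x hx => (hES q hq hqNp A hA x ⟨n, hZp n x hx⟩).1 σ hσ)
      (fun n => cycloInt_of_mem_inertia p n hq hqp hA hσ) g
  · intro n
    refine ⟨E₂ (n + c) ⊔ E₃ (n + c), ?_, fun σ hσ g => ?_⟩
    · have := hE₂fd (n + c)
      have := hE₃fd (n + c)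
      exact IntermediateField.finiteDimensional_sup _ _
    · exact ht.mul_left_sub_mem p hBG hpB hemul n σ
        (hZE (n + c) σ fun a ha =>
          hσ a ((le_sup_left : E₂ (n + c) ≤ E₂ (n + c) ⊔ E₃ (n + c)) ha))
        ((hE₃ (n + c) σ fun a ha =>
          hσ a ((le_sup_right : E₃ (n + c) ≤ E₂ (n + c) ⊔ E₃ (n + c)) ha)).1) g

end Fermat.Agent.S30.H86
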