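/-
S30 (helper86): the assembly of the frozen statement.

* `ajLeaf`        : `H34.AJLeaf N p` from the landed AJ core `H96.exists_AJ_pow` at `m = p ^ n`;
* `exists_trace`  : (TR) unconditionally — the pseudo-trace `t : Gal(ℚ̄/ℚ) → R` attached to
                    `χ : heckeAlgebra N 2 S →+* R` (`exists_trace_of_leaves` with the leaves
                    closed by `ajLeaf`, `S37.H77.core_free`, `S31.H94.stableLeaf`,
                    `S31.H75.haLeaf`);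
* `s30`           : the frozen S30 statement, by `H90.s30_of_pseudoTrace` ((RHO), helper90).
-/
import Mathlib
import Fermat.Agent.S30.H86.TraceInst
import Fermat.Agent.S30.H90.Rho
import Fermat.Agent.S42.H96.Final
import Fermat.Agent.S37.H77.CoreFree
import Fermat.Agent.S31.H94.Stable
import Fermat.Agent.S31.H75.HALeaf

set_option autoImplicit false

open CongruenceSubgroup ModularCurve ModularCurve.Period CuspForm Polynomial

namespace Fermat.Agent.S30.H86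

local notation "Γ" => (AlgebraicClosure ℚ ≃ₐ[ℚ] AlgebraicClosure ℚ)

/-- **(AJ)** = (R1) at the moduli `p ^ n`, from the AJ core. -/
theorem ajLeaf (N p : ℕ) [NeZero N] (hp : p ≠ 0) : Fermat.Agent.S31.H34.AJLeaf N p := by
  intro n
  obtain ⟨AJ, h1, -, h3⟩ := Fermat.Agent.S42.H96.exists_AJ_pow N (p ^ n) (pow_ne_zero n hp)
  refine ⟨AJ, h1, fun ℓ hℓN ψ ψ' hψ' => ?_⟩
  rw [h3 ℓ hℓN ψ]
  congr 1
  exact Subtype.ext hψ'.symm

/-- **(TR)** the pseudo-trace attached to a character of the Hecke algebra with values in a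
complete local ring in which `p` is not a unit. -/
theorem exists_trace (p : ℕ) [Fact p.Prime] (N : ℕ) [NeZero N] (S : Finset ℕ)
    (hpS : p ∈ S) (hNS : ∀ q : ℕ, q.Prime → q ∣ N → q ∈ S)
    (R : Type*) [CommRing R] [IsLocalRing R] [IsAdicComplete (IsLocalRing.maximalIdeal R) R]
    (hpR : (p : R) ∈ IsLocalRing.maximalIdeal R)
    (χ : CuspForm.heckeAlgebra N 2 (↑S : Set ℕ) →+* R) :
    ∃ t : Γ → R,
      t 1 = 2 ∧
      (∀ g h : Γ, t (g * h) = t (h * g)) ∧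
      (∀ g h : Γ, 2 * t (g * h) + (t h ^ 2 - t (h ^ 2)) * t (g * h⁻¹) = 2 * (t g * t h)) ∧
      (∀ g h : Γ, 2 * (t (g * h) ^ 2 - t ((g * h) ^ 2))
        = (t g ^ 2 - t (g ^ 2)) * (t h ^ 2 - t (h ^ 2))) ∧
      t complexConjugation = 0 ∧
      (∀ (ℓ : ℕ) (hℓ : ℓ.Prime) (hℓN : ¬ ℓ ∣ N) (hℓS : ℓ ∉ (↑S : Set ℕ)),
        ∀ A : ValuationSubring (AlgebraicClosure ℚ), A.LiesOverPrime ℓ →
          ∀ σ : Γ, A.IsFrobeniusAt σ ℓ →
            t σ = χ (CuspForm.heckeAlgebra.T hℓ hℓN hℓS) ∧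
              t σ ^ 2 - t (σ ^ 2) = 2 * (ℓ : R)) ∧
      (∀ q : ℕ, q.Prime → ¬ q ∣ N → q ≠ p →
        ∀ A : ValuationSubring (AlgebraicClosure ℚ), A.LiesOverPrime q →
          ∀ σ ∈ A.inertiaSubgroupIn ℚ, ∀ g : Γ, t (σ * g) = t g) ∧
      (∀ n : ℕ, ∃ L : IntermediateField ℚ (AlgebraicClosure ℚ), FiniteDimensional ℚ L ∧
        ∀ σ : Γ, (∀ x ∈ L, σ x = x) →
          ∀ g : Γ, t (σ * g) - t g ∈ IsLocalRing.maximalIdeal R ^ n) :=
  have hp : p.Prime := Fact.out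
  exists_trace_of_leaves p N S hpS hNS R hpR χ (ajLeaf N p hp.ne_zero)
    (Fermat.Agent.S37.H77.core_free N p) (Fermat.Agent.S31.H94.stableLeaf N p)
    (Fermat.Agent.S31.H75.haLeaf N p hp S)

/-- **The frozen S30 statement.** -/
theorem s30 :
    ∀ (p : ℕ) [Fact p.Prime] (N : ℕ) [NeZero N] (S : Finset ℕ)
      (_hpS : p ∈ S) (_hNS : ∀ q : ℕ, q.Prime → q ∣ N → q ∈ S)
      (𝒪' : Type) [CommRing 𝒪'] [IsDomain 𝒪'] [IsDiscreteValuationRing 𝒪']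
      [IsAdicComplete (IsLocalRing.maximalIdeal 𝒪') 𝒪'] [Finite (IsLocalRing.ResidueField 𝒪')]
      [CharZero 𝒪'] (_hp𝒪' : (p : 𝒪') ∈ IsLocalRing.maximalIdeal 𝒪')
      (χ : CuspForm.heckeAlgebra N 2 (↑S : Set ℕ) →+* 𝒪'),
      ∃ (𝒪'' : Type) (_ : CommRing 𝒪'') (_ : IsDomain 𝒪'') (_ : IsDiscreteValuationRing 𝒪'')
        (_ : IsAdicComplete (IsLocalRing.maximalIdeal 𝒪'') 𝒪'')
        (_ : Finite (IsLocalRing.ResidueField 𝒪'')) (_ : CharZero 𝒪'')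
        (_ : Algebra 𝒪' 𝒪'') (_ : Module.Finite 𝒪' 𝒪'') (_ : IsLocalHom (algebraMap 𝒪' 𝒪'')),
      Function.Injective (algebraMap 𝒪' 𝒪'') ∧
      ∃ ρ : GaloisRepAdic 𝒪'',
        (∀ (ℓ : ℕ) (hℓ : ℓ.Prime) (hℓN : ¬ ℓ ∣ N) (hℓS : ℓ ∉ (↑S : Set ℕ)),
          ∀ A : ValuationSubring (AlgebraicClosure ℚ), A.LiesOverPrime ℓ →
            ∀ σ : AlgebraicClosure ℚ ≃ₐ[ℚ] AlgebraicClosure ℚ, A.IsFrobeniusAt σ ℓ →
              LinearMap.charpoly (ρ.ρ σ) =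
                X ^ 2 - C (algebraMap 𝒪' 𝒪'' (χ (CuspForm.heckeAlgebra.T hℓ hℓN hℓS))) * X
                  + C ((ℓ : 𝒪''))) ∧
        (∀ q : ℕ, q.Prime → ¬ q ∣ N → q ≠ p → ρ.IsUnramifiedAt q) := by
  intro p _ N _ S hpS hNS 𝒪' _ _ _ _ _ _ hp𝒪' χ
  obtain ⟨t, h1, h2, h3, h4, h5, h6, h7, h8⟩ := exists_trace p N S hpS hNS 𝒪' hp𝒪' χ
  exact Fermat.Agent.S30.H90.s30_of_pseudoTrace p N S 𝒪' χ t h1 h2 h3 h4 h5 h6 h7 h8

end Fermat.Agent.S30.H86
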